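import Fermat.Agent.S27.H363.Pushout

/-!
# S27, leaf CURVE (part GLUE): sections over an affine chart — helper363

For a morphism `j : Spec B ⟶ Y` and an open `U` of `Y` with `j ⁻¹ U = ⊤` we have the ring map
`secHom j U : Γ(Y, U) ⟶ B`; if `j` is an open immersion with range `U` it is an isomorphism.
Compatibility with restriction, with precomposition by `Spec.map`, with structure maps, and
the computation of basic opens.
-/

set_option autoImplicit false
universe u
open CategoryTheory CategoryTheory.Limits AlgebraicGeometry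

namespace Fermat.Agent.S27.H363

theorem appTop_eq_appLE {X Y : Scheme.{u}} (f : X ⟶ Y) :
    f.appTop = f.appLE ⊤ ⊤ (le_of_eq f.preimage_top.symm) := by
  rw [Scheme.Hom.appTop, Scheme.Hom.app_eq_appLE]
  rfl

section Sec

variable {Y : Scheme.{u}} {B : Type u} [CommRing B]

/-- `Γ(Y, U) ⟶ B` induced by `j : Spec B ⟶ Y`, for an open `U` containing the range of `j`. -/
noncomputable def secHom (j : Spec (CommRingCat.of B) ⟶ Y) (U : Y.Opens) (h : j ⁻¹ᵁ U = ⊤) :
    Γ(Y, U) ⟶ CommRingCat.of B :=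
  j.appLE U ⊤ (le_of_eq h.symm) ≫ (Scheme.ΓSpecIso (CommRingCat.of B)).hom

theorem map_secHom (j : Spec (CommRingCat.of B) ⟶ Y) {U U' : Y.Opens} (hle : U' ≤ U)
    (h' : j ⁻¹ᵁ U' = ⊤) (h : j ⁻¹ᵁ U = ⊤) :
    Y.presheaf.map (homOfLE hle).op ≫ secHom j U' h' = secHom j U h := by
  rw [secHom, secHom, ← Category.assoc, Scheme.Hom.map_appLE]

theorem secHom_comp {B' : Type u} [CommRing B'] (φ : B →+* B')
    (j : Spec (CommRingCat.of B) ⟶ Y) (U : Y.Opens) (h : j ⁻¹ᵁ U = ⊤)
    (h' : (Spec.map (CommRingCat.ofHom φ) ≫ j) ⁻¹ᵁ U = ⊤) :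
    secHom (Spec.map (CommRingCat.ofHom φ) ≫ j) U h' = secHom j U h ≫ CommRingCat.ofHom φ := by
  have e1 : (Spec.map (CommRingCat.ofHom φ) ≫ j).appLE U ⊤ (le_of_eq h'.symm) =
      j.appLE U ⊤ (le_of_eq h.symm) ≫ (Spec.map (CommRingCat.ofHom φ)).appTop := by
    rw [appTop_eq_appLE]
    exact (Scheme.Hom.appLE_comp_appLE _ _ _ _ _ _ _).symm
  rw [secHom, secHom, e1, Category.assoc, Category.assoc, Scheme.ΓSpecIso_naturality]

theorem secHom_top_comp {R : Type u} [CommRing R] (j : Spec (CommRingCat.of B) ⟶ Y)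
    (c : Y ⟶ Spec (CommRingCat.of R)) (φ : R →+* B)
    (hc : j ≫ c = Spec.map (CommRingCat.ofHom φ)) (h : j ⁻¹ᵁ (⊤ : Y.Opens) = ⊤) :
    (Scheme.ΓSpecIso (CommRingCat.of R)).inv ≫ c.appTop ≫ secHom j ⊤ h =
      CommRingCat.ofHom φ := by
  have e1 : c.appTop ≫ j.appLE ⊤ ⊤ (le_of_eq h.symm) =
      (Spec.map (CommRingCat.ofHom φ)).appTop := by
    rw [← hc, appTop_eq_appLE c, appTop_eq_appLE (j ≫ c)]
    exact Scheme.Hom.appLE_comp_appLE _ _ _ _ _ _ _
  rw [secHom, ← Category.assoc c.appTop, e1, Scheme.ΓSpecIso_naturality,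
    Iso.inv_hom_id_assoc]

variable (j : Spec (CommRingCat.of B) ⟶ Y) [IsOpenImmersion j]

theorem preimage_eq_top_of_eq_opensRange (U : Y.Opens) (hU : U = j.opensRange) :
    j ⁻¹ᵁ U = ⊤ := by
  rw [hU]; exact Scheme.Hom.preimage_opensRange j

theorem isIso_secHom (U : Y.Opens) (hU : U = j.opensRange) :
    IsIso (secHom j U (preimage_eq_top_of_eq_opensRange j U hU)) := by
  subst hU
  have e : j.appLE j.opensRange ⊤ (le_of_eq (Scheme.Hom.preimage_opensRange j).symm) =
      Y.presheaf.map (eqToHom j.image_top_eq_opensRange).op ≫ (j.appIso ⊤).hom := by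
    rw [Scheme.Hom.appIso_hom', Scheme.Hom.map_appLE]
  rw [secHom, e]
  infer_instance

/-- `Γ(Y, U) ≃+* B` when `U` is the range of the open immersion `j : Spec B ⟶ Y`. -/
noncomputable def secEquiv (U : Y.Opens) (hU : U = j.opensRange) : Γ(Y, U) ≃+* B :=
  haveI := isIso_secHom j U hU
  (asIso (secHom j U (preimage_eq_top_of_eq_opensRange j U hU))).commRingCatIsoToRingEquiv

theorem secEquiv_apply (U : Y.Opens) (hU : U = j.opensRange) (s : Γ(Y, U)) :
    secEquiv j U hU s = (secHom j U (preimage_eq_top_of_eq_opensRange j U hU)).hom s := rfl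

/-- The basic open of a section over the chart `U = range j`. -/
theorem basicOpen_eq_image (U : Y.Opens) (hU : U = j.opensRange) (s : Γ(Y, U)) :
    Y.basicOpen s = j ''ᵁ (PrimeSpectrum.basicOpen (secEquiv j U hU s)) := by
  have h1 : j ⁻¹ᵁ (Y.basicOpen s) = PrimeSpectrum.basicOpen (secEquiv j U hU s) := by
    have := Scheme.basicOpen_appLE j ⊤ U
      (le_of_eq (preimage_eq_top_of_eq_opensRange j U hU).symm) s
    rw [top_inf_eq, basicOpen_eq_of_affine'] at this
    rw [← this]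
    rfl
  rw [← h1, Scheme.Hom.image_preimage_eq_opensRange_inf, eq_comm, inf_eq_right, ← hU]
  exact Y.basicOpen_le s

theorem basicOpen_symm_eq_image (U : Y.Opens) (hU : U = j.opensRange) (b : B) :
    Y.basicOpen ((secEquiv j U hU).symm b) = j ''ᵁ (PrimeSpectrum.basicOpen b) := by
  rw [basicOpen_eq_image j U hU, RingEquiv.apply_symm_apply]

end Sec

end Fermat.Agent.S27.H363
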