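import Fermat.Agent.S27.H363.CurveGlue

/-!
# S27, leaf CURVE (part GLUE): the glued curve carries a `ChartOf` — helper363

`exists_chartOf` : a curve chart `(B₀, B₁, B₀₁, x, y, e)` is the two-chart presentation
(`S25.ChartOf`) of the scheme `C = Spec B₀ ∪ Spec B₁` glued along `Spec B₀₁`, with its structure
map to `Spec k` and the marked point given by `e`.  This is `Stmt.CurveScheme` minus the three
properties (proper, smooth of relative dimension one, integral).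
-/

set_option autoImplicit false
universe u
open CategoryTheory CategoryTheory.Limits AlgebraicGeometry NeronModelInfra

namespace Fermat.Agent.S27.H363

open Fermat.Agent.S25

section Chart

variable (k : Type u) [Field k] (B₀ B₁ B₀₁ : Type u) [CommRing B₀] [CommRing B₁] [CommRing B₀₁]
  [Algebra k B₀] [Algebra k B₁] [Algebra k B₀₁] [Algebra B₀ B₀₁] [Algebra B₁ B₀₁]
  [IsScalarTower k B₀ B₀₁] [IsScalarTower k B₁ B₀₁]
  [IsOpenImmersion (gL B₀ B₀₁)] [IsOpenImmersion (gR B₁ B₀₁)]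

/-- The marked point `Spec k ⟶ C` given by `e : B₁ → k`. -/
noncomputable def epsPt (e : B₁ →ₐ[k] k) :
    SchemeHomOver (𝟙 (Spec (CommRingCat.of k))) (toBase k B₀ B₁ B₀₁) :=
  ⟨Spec.map (CommRingCat.ofHom (e : B₁ →+* k)) ≫ chartR B₀ B₁ B₀₁, by
    rw [Category.assoc, chartR_toBase, ← Spec.map_comp, ← CommRingCat.ofHom_comp]
    have : (e : B₁ →+* k).comp (algebraMap k B₁) = RingHom.id k := by
      ext a; simp
    rw [this]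
    exact Spec.map_id _⟩

theorem epsPt_preimage (e : B₁ →ₐ[k] k) :
    (epsPt k B₀ B₁ B₀₁ e).1 ⁻¹ᵁ (chartR B₀ B₁ B₀₁).opensRange = ⊤ := by
  change (Spec.map (CommRingCat.ofHom (e : B₁ →+* k)) ≫ chartR B₀ B₁ B₀₁) ⁻¹ᵁ _ = ⊤
  rw [Scheme.Hom.comp_preimage, Scheme.Hom.preimage_opensRange]
  rfl

theorem secHom_congr {Y : Scheme.{u}} {B : Type u} [CommRing B]
    {j j' : Spec (CommRingCat.of B) ⟶ Y} (hj : j = j') (U : Y.Opens) (h : j ⁻¹ᵁ U = ⊤)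
    (h' : j' ⁻¹ᵁ U = ⊤) : secHom j U h = secHom j' U h' := by
  subst hj; rfl

/-- The ring isomorphism `Γ(C, U₀) ≃ B₀`. -/
noncomputable def iso₀ : Γ(glued B₀ B₁ B₀₁, (chartL B₀ B₁ B₀₁).opensRange) ≃+* B₀ :=
  secEquiv (chartL B₀ B₁ B₀₁) _ rfl

/-- The ring isomorphism `Γ(C, U₁) ≃ B₁`. -/
noncomputable def iso₁ : Γ(glued B₀ B₁ B₀₁, (chartR B₀ B₁ B₀₁).opensRange) ≃+* B₁ :=
  secEquiv (chartR B₀ B₁ B₀₁) _ rfl

/-- The ring isomorphism `Γ(C, U₀ ⊓ U₁) ≃ B₀₁`. -/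
noncomputable def iso₀₁ :
    Γ(glued B₀ B₁ B₀₁, (chartL B₀ B₁ B₀₁).opensRange ⊓ (chartR B₀ B₁ B₀₁).opensRange) ≃+*
      B₀₁ :=
  secEquiv (gL B₀ B₀₁ ≫ chartL B₀ B₁ B₀₁) _ (chart_inf B₀ B₁ B₀₁)

theorem iso₀_str (a : k) :
    iso₀ B₀ B₁ B₀₁ (sectionsStr (toBase k B₀ B₁ B₀₁) (chartL B₀ B₁ B₀₁).opensRange a) =
      algebraMap k B₀ a := by
  have h1 := map_secHom (chartL B₀ B₁ B₀₁) (le_top : (chartL B₀ B₁ B₀₁).opensRange ≤ ⊤)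
    (preimage_eq_top_of_eq_opensRange _ _ rfl) (Scheme.Hom.preimage_top _)
  have h2 := secHom_top_comp (chartL B₀ B₁ B₀₁) (toBase k B₀ B₁ B₀₁) (algebraMap k B₀)
    (chartL_toBase k B₀ B₁ B₀₁) (Scheme.Hom.preimage_top _)
  rw [← h1] at h2
  have h3 := congrArg (fun φ => φ.hom a) h2
  exact h3

theorem iso₁_str (a : k) :
    iso₁ B₀ B₁ B₀₁ (sectionsStr (toBase k B₀ B₁ B₀₁) (chartR B₀ B₁ B₀₁).opensRange a) =
      algebraMap k B₁ a := by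
  have h1 := map_secHom (chartR B₀ B₁ B₀₁) (le_top : (chartR B₀ B₁ B₀₁).opensRange ≤ ⊤)
    (preimage_eq_top_of_eq_opensRange _ _ rfl) (Scheme.Hom.preimage_top _)
  have h2 := secHom_top_comp (chartR B₀ B₁ B₀₁) (toBase k B₀ B₁ B₀₁) (algebraMap k B₁)
    (chartR_toBase k B₀ B₁ B₀₁) (Scheme.Hom.preimage_top _)
  rw [← h1] at h2
  have h3 := congrArg (fun φ => φ.hom a) h2
  exact h3

theorem iso₀₁_res₀ (f : Γ(glued B₀ B₁ B₀₁, (chartL B₀ B₁ B₀₁).opensRange)) :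
    iso₀₁ B₀ B₁ B₀₁ (resRing inf_le_left f) = algebraMap B₀ B₀₁ (iso₀ B₀ B₁ B₀₁ f) := by
  have hpre : (gL B₀ B₀₁ ≫ chartL B₀ B₁ B₀₁) ⁻¹ᵁ (chartL B₀ B₁ B₀₁).opensRange = ⊤ := by
    rw [Scheme.Hom.comp_preimage, Scheme.Hom.preimage_opensRange]; rfl
  have h1 := map_secHom (gL B₀ B₀₁ ≫ chartL B₀ B₁ B₀₁)
    (inf_le_left : (chartL B₀ B₁ B₀₁).opensRange ⊓ (chartR B₀ B₁ B₀₁).opensRange ≤ _)
    (preimage_eq_top_of_eq_opensRange _ _ (chart_inf B₀ B₁ B₀₁)) hpre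
  have h2 := secHom_comp (algebraMap B₀ B₀₁) (chartL B₀ B₁ B₀₁) (chartL B₀ B₁ B₀₁).opensRange
    (preimage_eq_top_of_eq_opensRange _ _ rfl) hpre
  have h3 := congrArg (fun φ => φ.hom f) (h1.trans h2)
  exact h3

theorem iso₀₁_res₁ (f : Γ(glued B₀ B₁ B₀₁, (chartR B₀ B₁ B₀₁).opensRange)) :
    iso₀₁ B₀ B₁ B₀₁ (resRing inf_le_right f) = algebraMap B₁ B₀₁ (iso₁ B₀ B₁ B₀₁ f) := by
  have hpre : (gR B₁ B₀₁ ≫ chartR B₀ B₁ B₀₁) ⁻¹ᵁ (chartR B₀ B₁ B₀₁).opensRange = ⊤ := by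
    rw [Scheme.Hom.comp_preimage, Scheme.Hom.preimage_opensRange]; rfl
  have hpre' : (gL B₀ B₀₁ ≫ chartL B₀ B₁ B₀₁) ⁻¹ᵁ (chartR B₀ B₁ B₀₁).opensRange = ⊤ := by
    rw [chart_condition]; exact hpre
  have h1 := map_secHom (gL B₀ B₀₁ ≫ chartL B₀ B₁ B₀₁)
    (inf_le_right : (chartL B₀ B₁ B₀₁).opensRange ⊓ (chartR B₀ B₁ B₀₁).opensRange ≤ _)
    (preimage_eq_top_of_eq_opensRange _ _ (chart_inf B₀ B₁ B₀₁)) hpre'
  have h1' := secHom_congr (chart_condition B₀ B₁ B₀₁) (chartR B₀ B₁ B₀₁).opensRange hpre' hpre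
  have h2 := secHom_comp (algebraMap B₁ B₀₁) (chartR B₀ B₁ B₀₁) (chartR B₀ B₁ B₀₁).opensRange
    (preimage_eq_top_of_eq_opensRange _ _ rfl) hpre
  have h3 := congrArg (fun φ => φ.hom f) ((h1.trans h1').trans h2)
  exact h3

theorem opensRange_congr {X Y : Scheme.{u}} {f g : X ⟶ Y} [IsOpenImmersion f]
    [IsOpenImmersion g] (h : f = g) : f.opensRange = g.opensRange := by
  subst h; rfl

theorem gL_opensRange (x : B₀) [IsLocalization.Away x B₀₁] :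
    (gL B₀ B₀₁).opensRange = PrimeSpectrum.basicOpen x :=
  TopologicalSpace.Opens.ext (PrimeSpectrum.localization_away_comap_range B₀₁ x)

theorem gR_opensRange (y : B₁) [IsLocalization.Away y B₀₁] :
    (gR B₁ B₀₁).opensRange = PrimeSpectrum.basicOpen y :=
  TopologicalSpace.Opens.ext (PrimeSpectrum.localization_away_comap_range B₀₁ y)

theorem inf_eq₀ (x : B₀) [IsLocalization.Away x B₀₁] :
    (chartL B₀ B₁ B₀₁).opensRange ⊓ (chartR B₀ B₁ B₀₁).opensRange =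
      (glued B₀ B₁ B₀₁).basicOpen ((iso₀ B₀ B₁ B₀₁).symm x) := by
  rw [iso₀, basicOpen_symm_eq_image, chart_inf, Scheme.Hom.opensRange_comp,
    gL_opensRange B₀ B₀₁ x]

theorem inf_eq₁ (y : B₁) [IsLocalization.Away y B₀₁] :
    (chartL B₀ B₁ B₀₁).opensRange ⊓ (chartR B₀ B₁ B₀₁).opensRange =
      (glued B₀ B₁ B₀₁).basicOpen ((iso₁ B₀ B₁ B₀₁).symm y) := by
  rw [iso₁, basicOpen_symm_eq_image, chart_inf, opensRange_congr (chart_condition B₀ B₁ B₀₁),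
    Scheme.Hom.opensRange_comp, gR_opensRange B₁ B₀₁ y]

theorem eps_eval (e : B₁ →ₐ[k] k) (f : Γ(glued B₀ B₁ B₀₁, (chartR B₀ B₁ B₀₁).opensRange)) :
    e (iso₁ B₀ B₁ B₀₁ f) =
      evalAt (toBase k B₀ B₁ B₀₁) (epsPt k B₀ B₁ B₀₁ e) (chartR B₀ B₁ B₀₁).opensRange
        (epsPt_preimage k B₀ B₁ B₀₁ e) f := by
  have h2 := secHom_comp (e : B₁ →+* k) (chartR B₀ B₁ B₀₁) (chartR B₀ B₁ B₀₁).opensRange
    (preimage_eq_top_of_eq_opensRange _ _ rfl) (epsPt_preimage k B₀ B₁ B₀₁ e)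
  have h3 := congrArg (fun φ => φ.hom f) h2
  exact h3.symm

/-- The two-chart presentation of the glued curve. -/
noncomputable def gluedChartOf (x : B₀) (y : B₁) (e : B₁ →ₐ[k] k)
    (h : IsCurveChart k B₀ B₁ B₀₁ x y e) :
    ChartOf (toBase k B₀ B₁ B₀₁) (epsPt k B₀ B₁ B₀₁ e) where
  B₀ := B₀
  B₁ := B₁
  B₀₁ := B₀₁
  x := x
  y := y
  e := e
  isCurveChart := h
  U₀ := (chartL B₀ B₁ B₀₁).opensRange
  U₁ := (chartR B₀ B₁ B₀₁).opensRange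
  isAffine₀ := isAffineOpen_opensRange _
  isAffine₁ := isAffineOpen_opensRange _
  cover := chart_cover B₀ B₁ B₀₁
  i₀ := iso₀ B₀ B₁ B₀₁
  i₁ := iso₁ B₀ B₁ B₀₁
  i₀₁ := iso₀₁ B₀ B₁ B₀₁
  i₀_str := iso₀_str k B₀ B₁ B₀₁
  i₁_str := iso₁_str k B₀ B₁ B₀₁
  i₀₁_res₀ := iso₀₁_res₀ B₀ B₁ B₀₁
  i₀₁_res₁ := iso₀₁_res₁ B₀ B₁ B₀₁
  inf_eq₀ := have := h.away₀; inf_eq₀ B₀ B₁ B₀₁ x
  inf_eq₁ := have := h.away₁; inf_eq₁ B₀ B₁ B₀₁ y
  eps_mem := epsPt_preimage k B₀ B₁ B₀₁ e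
  e_eq := eps_eval k B₀ B₁ B₀₁ e

end Chart

/-- **GLUE.** A curve chart is the two-chart presentation of a pointed scheme over `k`
(`Stmt.CurveScheme` minus properness, smoothness and integrality, which hold for every scheme
with a `ChartOf`). -/
theorem exists_chartOf (k : Type u) [Field k] (B₀ B₁ B₀₁ : Type u) [CommRing B₀] [CommRing B₁]
    [CommRing B₀₁] [Algebra k B₀] [Algebra k B₁] [Algebra k B₀₁] [Algebra B₀ B₀₁]
    [Algebra B₁ B₀₁] [IsScalarTower k B₀ B₀₁] [IsScalarTower k B₁ B₀₁] (x : B₀) (y : B₁)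
    (e : B₁ →ₐ[k] k) (h : IsCurveChart k B₀ B₁ B₀₁ x y e) :
    ∃ (C : Scheme.{u}) (c : C ⟶ Spec (CommRingCat.of k))
      (ε : SchemeHomOver (𝟙 (Spec (CommRingCat.of k))) c) (Ch : ChartOf c ε)
      (φ₀ : Ch.B₀ ≃ₐ[k] B₀) (φ₁ : Ch.B₁ ≃ₐ[k] B₁) (φ₀₁ : Ch.B₀₁ ≃ₐ[k] B₀₁),
      (∀ b, φ₀₁ (algebraMap Ch.B₀ Ch.B₀₁ b) = algebraMap B₀ B₀₁ (φ₀ b)) ∧
        ∀ b, φ₀₁ (algebraMap Ch.B₁ Ch.B₀₁ b) = algebraMap B₁ B₀₁ (φ₁ b) := by
  have hL : IsOpenImmersion (gL B₀ B₀₁) :=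
    have := h.away₀
    IsOpenImmersion.of_isLocalization x
  have hR : IsOpenImmersion (gR B₁ B₀₁) :=
    have := h.away₁
    IsOpenImmersion.of_isLocalization y
  exact ⟨glued B₀ B₁ B₀₁, toBase k B₀ B₁ B₀₁, epsPt k B₀ B₁ B₀₁ e,
    gluedChartOf k B₀ B₁ B₀₁ x y e h, AlgEquiv.refl, AlgEquiv.refl, AlgEquiv.refl,
    fun _ => rfl, fun _ => rfl⟩

end Fermat.Agent.S27.H363
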