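import Fermat.Agent.S27.H363.ChartSections

/-!
# S27, leaf CURVE (part GLUE): the scheme glued from a two-chart presentation — helper363

Given rings `B₀`, `B₁`, `B₀₁` over `k` such that `Spec B₀₁ → Spec B₀` and `Spec B₀₁ → Spec B₁`
are open immersions, we glue `C = Spec B₀ ∪ Spec B₁` along `Spec B₀₁`, with its structure map
to `Spec k`, its two affine charts, and the rings of sections on the charts and on their
intersection.
-/

set_option autoImplicit false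
universe u
open CategoryTheory CategoryTheory.Limits AlgebraicGeometry

namespace Fermat.Agent.S27.H363

section Glue

variable (k : Type u) [Field k] (B₀ B₁ B₀₁ : Type u) [CommRing B₀] [CommRing B₁] [CommRing B₀₁]
  [Algebra k B₀] [Algebra k B₁] [Algebra k B₀₁] [Algebra B₀ B₀₁] [Algebra B₁ B₀₁]
  [IsScalarTower k B₀ B₀₁] [IsScalarTower k B₁ B₀₁]

/-- `Spec B₀₁ ⟶ Spec B₀`. -/
noncomputable abbrev gL : Spec (CommRingCat.of B₀₁) ⟶ Spec (CommRingCat.of B₀) :=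
  Spec.map (CommRingCat.ofHom (algebraMap B₀ B₀₁))

/-- `Spec B₀₁ ⟶ Spec B₁`. -/
noncomputable abbrev gR : Spec (CommRingCat.of B₀₁) ⟶ Spec (CommRingCat.of B₁) :=
  Spec.map (CommRingCat.ofHom (algebraMap B₁ B₀₁))

variable [IsOpenImmersion (gL B₀ B₀₁)] [IsOpenImmersion (gR B₁ B₀₁)]

attribute [local instance] hasPushout_of_isOpenImmersion inl_isOpenImmersion
  inr_isOpenImmersion

/-- The glued scheme `Spec B₀ ∪ Spec B₁`. -/
noncomputable def glued : Scheme.{u} := pushout (gL B₀ B₀₁) (gR B₁ B₀₁)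

/-- The chart `Spec B₀ ⟶ C`. -/
noncomputable def chartL : Spec (CommRingCat.of B₀) ⟶ glued B₀ B₁ B₀₁ :=
  pushout.inl (gL B₀ B₀₁) (gR B₁ B₀₁)

/-- The chart `Spec B₁ ⟶ C`. -/
noncomputable def chartR : Spec (CommRingCat.of B₁) ⟶ glued B₀ B₁ B₀₁ :=
  pushout.inr (gL B₀ B₀₁) (gR B₁ B₀₁)

instance chartL_isOpenImmersion : IsOpenImmersion (chartL B₀ B₁ B₀₁) :=
  inl_isOpenImmersion _ _

instance chartR_isOpenImmersion : IsOpenImmersion (chartR B₀ B₁ B₀₁) :=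
  inr_isOpenImmersion _ _

theorem chart_condition :
    gL B₀ B₀₁ ≫ chartL B₀ B₁ B₀₁ = gR B₁ B₀₁ ≫ chartR B₀ B₁ B₀₁ :=
  pushout.condition

/-- The structure map `C ⟶ Spec k`. -/
noncomputable def toBase : glued B₀ B₁ B₀₁ ⟶ Spec (CommRingCat.of k) :=
  pushout.desc (Spec.map (CommRingCat.ofHom (algebraMap k B₀)))
    (Spec.map (CommRingCat.ofHom (algebraMap k B₁))) (by
      rw [← Spec.map_comp, ← Spec.map_comp, ← CommRingCat.ofHom_comp, ← CommRingCat.ofHom_comp,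
        ← IsScalarTower.algebraMap_eq, ← IsScalarTower.algebraMap_eq])

theorem chartL_toBase :
    chartL B₀ B₁ B₀₁ ≫ toBase k B₀ B₁ B₀₁ = Spec.map (CommRingCat.ofHom (algebraMap k B₀)) :=
  pushout.inl_desc _ _ _

theorem chartR_toBase :
    chartR B₀ B₁ B₀₁ ≫ toBase k B₀ B₁ B₀₁ = Spec.map (CommRingCat.ofHom (algebraMap k B₁)) :=
  pushout.inr_desc _ _ _

/-- The two charts cover. -/
theorem chart_cover :
    (chartL B₀ B₁ B₀₁).opensRange ⊔ (chartR B₀ B₁ B₀₁).opensRange = ⊤ := by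
  rw [eq_top_iff]
  intro p _
  rcases pushout_cover (gL B₀ B₀₁) (gR B₁ B₀₁) p with ⟨a, ha⟩ | ⟨b, hb⟩
  · exact Or.inl ⟨a, ha⟩
  · exact Or.inr ⟨b, hb⟩

/-- The two charts meet in `Spec B₀₁`. -/
theorem chart_inf :
    (chartL B₀ B₁ B₀₁).opensRange ⊓ (chartR B₀ B₁ B₀₁).opensRange =
      (gL B₀ B₀₁ ≫ chartL B₀ B₁ B₀₁).opensRange := by
  apply le_antisymm
  · rintro p ⟨⟨a, ha⟩, ⟨b, hb⟩⟩
    obtain ⟨w, hw, -⟩ := (inl_eq_inr_iff (gL B₀ B₀₁) (gR B₁ B₀₁) a b).mp (ha.trans hb.symm)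
    refine ⟨w, ?_⟩
    rw [Scheme.Hom.comp_apply, hw]
    exact ha
  · rintro p ⟨w, rfl⟩
    refine ⟨⟨gL B₀ B₀₁ w, (Scheme.Hom.comp_apply _ _ _).symm⟩, ⟨gR B₁ B₀₁ w, ?_⟩⟩
    rw [← Scheme.Hom.comp_apply, ← chart_condition]

end Glue

end Fermat.Agent.S27.H363
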