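import Fermat.Agent.S27.Spec

/-!
# S27, leaf CURVE (part GLUE): pushouts of schemes along open immersions — helper363

For open immersions `f : W ⟶ X`, `g : W ⟶ Y` the pushout `X ⊔_W Y` exists in schemes (Mathlib:
colimits of locally directed diagrams of open immersions), the two coprojections are open
immersions, their ranges cover the pushout and meet exactly in the range of `W`.
-/

set_option autoImplicit false
universe u
open CategoryTheory CategoryTheory.Limits AlgebraicGeometry

namespace Fermat.Agent.S27.H363

section Span

variable {W X Y : Scheme.{u}} (f : W ⟶ X) (g : W ⟶ Y) [IsOpenImmersion f] [IsOpenImmersion g]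

/-- All maps of the span of two open immersions are open immersions. -/
theorem span_map_isOpenImmersion : ∀ {i j : WalkingSpan} (φ : i ⟶ j),
    IsOpenImmersion ((span f g).map φ)
  | _, _, WidePushoutShape.Hom.id i => by
    have : (span f g).map (WidePushoutShape.Hom.id i) = 𝟙 _ := (span f g).map_id i
    rw [this]; infer_instance
  | _, _, WidePushoutShape.Hom.init WalkingPair.left => by
    change IsOpenImmersion f; infer_instance
  | _, _, WidePushoutShape.Hom.init WalkingPair.right => by
    change IsOpenImmersion g; infer_instance

/-- The pushout of two open immersions of schemes exists. -/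
theorem hasPushout_of_isOpenImmersion : HasPushout f g := by
  have : ∀ {i j : WalkingSpan} (φ : i ⟶ j), IsOpenImmersion ((span f g).map φ) :=
    span_map_isOpenImmersion f g
  exact (inferInstance : HasColimit (span f g))

/-- The left coprojection is an open immersion. -/
theorem inl_isOpenImmersion [HasPushout f g] : IsOpenImmersion (pushout.inl f g) := by
  have : ∀ {i j : WalkingSpan} (φ : i ⟶ j), IsOpenImmersion ((span f g).map φ) :=
    span_map_isOpenImmersion f g
  exact (inferInstance : IsOpenImmersion (colimit.ι (span f g) WalkingSpan.left))

/-- The right coprojection is an open immersion. -/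
theorem inr_isOpenImmersion [HasPushout f g] : IsOpenImmersion (pushout.inr f g) := by
  have : ∀ {i j : WalkingSpan} (φ : i ⟶ j), IsOpenImmersion ((span f g).map φ) :=
    span_map_isOpenImmersion f g
  exact (inferInstance : IsOpenImmersion (colimit.ι (span f g) WalkingSpan.right))

/-- Every point of the pushout lies in one of the two charts. -/
theorem pushout_cover [HasPushout f g] (p : ↑(pushout f g)) :
    (∃ a : X, pushout.inl f g a = p) ∨ ∃ b : Y, pushout.inr f g b = p := by
  have : ∀ {i j : WalkingSpan} (φ : i ⟶ j), IsOpenImmersion ((span f g).map φ) :=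
    span_map_isOpenImmersion f g
  obtain ⟨i, xi, h⟩ := Scheme.IsLocallyDirected.ι_jointly_surjective (span f g) p
  match i, xi, h with
  | none, xi, h =>
    have e : colimit.ι (span f g) none = f ≫ pushout.inl f g :=
      (colimit.w (span f g) (WidePushoutShape.Hom.init WalkingPair.left)).symm
    rw [e] at h
    exact Or.inl ⟨f (id xi : W), h⟩
  | some WalkingPair.left, xi, h => exact Or.inl ⟨xi, h⟩
  | some WalkingPair.right, xi, h => exact Or.inr ⟨xi, h⟩

/-- Two points of the charts are identified in the pushout iff they come from `W`. -/
theorem inl_eq_inr_iff [HasPushout f g] (a : X) (b : Y) :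
    pushout.inl f g a = pushout.inr f g b ↔ ∃ w : W, f w = a ∧ g w = b := by
  have : ∀ {i j : WalkingSpan} (φ : i ⟶ j), IsOpenImmersion ((span f g).map φ) :=
    span_map_isOpenImmersion f g
  constructor
  · intro h
    obtain ⟨k, fi, fj, w, h1, h2⟩ :=
      (Scheme.IsLocallyDirected.ι_eq_ι_iff (F := span f g) (i := WalkingSpan.left)
        (j := WalkingSpan.right) (xi := a) (xj := b)).mp h
    match k, fi, fj, w, h1, h2 with
    | none, WidePushoutShape.Hom.init _, WidePushoutShape.Hom.init _, w, h1, h2 =>
      exact ⟨w, h1, h2⟩
  · rintro ⟨w, rfl, rfl⟩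
    rw [← Scheme.Hom.comp_apply, ← Scheme.Hom.comp_apply, pushout.condition]

end Span

end Fermat.Agent.S27.H363
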